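import Fermat.Agent.S36.Mod.ALProp

set_option autoImplicit false

/-!
# S36 / MOD36-B : properties of the expansion at the middle cusp

* `IsMid.apply_of_dvd`, `IsMid.apply_sq` : values on the generators; `IsMid.ext` : uniqueness;
* `exists_isMid` : existence for every primitive `q`-th root of unity `ζ`;
* `IsMid.galois` : `σ ∘ φ_ζ = φ_{σ ζ} ∘ σ`;
* `IsMid.comp_beta` : `φ_ζ (f(Q^q)) = (w_q f)(ζ Q)` for `f ∈ F_{Mq}`;
* `IsMid.exists_K` : the `K`-rational version for `ι : K →+* ℚ̄` with `ζ ∈ ι K`.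
-/

noncomputable section

open UpperHalfPlane ModularForm CongruenceSubgroup
open scoped MatrixGroups

namespace Fermat.Agent.S36.Mod

open AlgebraicCurve ModularCurve
open Fermat.Agent.S24
open Fermat.Agent.GES
open Fermat.Agent.S18 (toFN toFN_coe)

variable {M q : ℕ} [NeZero M] [NeZero q] {ζ : Kbˣ} {φ φ' : FN (M * q * q) →+* LaurentSeries Kb}

omit [NeZero M] [NeZero q] in
theorem dvd_cases (hq : q.Prime) {d : ℕ} (hd : d ∣ M * q * q) :
    d ∣ M * q ∨ ∃ d', d' ∣ M ∧ d = q * q * d' := by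
  have hd1 : d ∣ M * (q ^ 2) := by rw [pow_two, ← mul_assoc]; exact hd
  obtain ⟨d₁, d₂, h1, h2, rfl⟩ := (Nat.dvd_mul).1 hd1
  obtain ⟨i, hi, rfl⟩ := (Nat.dvd_prime_pow hq).1 h2
  interval_cases i
  · left; simpa using h1.mul_right q
  · left; simpa using Nat.mul_dvd_mul_right h1 q
  · right; exact ⟨d₁, h1, by ring⟩

theorem IsMid.apply_of_dvd (h : IsMid M q ζ φ) {d : ℕ} (hd : d ∣ M * q) (hd' : d ∣ M * q * q) :
    φ (jdF (M * q * q) hd') = Jser d := by
  have := h.alpha (jdF (M * q) hd)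
  rwa [alpha_jdF, coe_jdF] at this

theorem IsMid.apply_sq (h : IsMid M q ζ φ) {d' : ℕ} (hd' : d' ∣ M) (hd : q * q * d' ∣ M * q * q) :
    φ (jdF (M * q * q) hd) = S28.twist ζ (Jser d') := by
  have h1 : q * d' ∣ M * q := by rw [mul_comm q d']; exact Nat.mul_dvd_mul_right hd' q
  have h2 : q * (q * d') ∣ M * q * q := by
    rw [mul_comm q (q * d')]; exact Nat.mul_dvd_mul_right h1 q
  have := h.beta (jdF M hd')
  rw [beta_jdF M q hd' h1, beta_jdF (M * q) q h1 h2, coe_jdF,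
    jdF_congr (M * q * q) (by ring : q * (q * d') = q * q * d') h2 hd] at this
  exact this

theorem IsMid.ext (hq : q.Prime) (h : IsMid M q ζ φ) (h' : IsMid M q ζ φ') : φ = φ' := by
  apply ringHom_ext (M * q * q)
  · intro a; rw [h.const, h'.const]
  · intro d hd
    rcases dvd_cases hq hd with h1 | ⟨d', h1, rfl⟩
    · rw [h.apply_of_dvd h1 hd, h'.apply_of_dvd h1 hd]
    · rw [h.apply_sq h1 hd, h'.apply_sq h1 hd]

theorem exists_isMid (hq : q.Prime) (hqM : ¬ q ∣ M) (hζ : IsPrimitiveRoot ζ q) :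
    ∃ φ : FN (M * q * q) →+* LaurentSeries Kb, IsMid M q ζ φ := by
  have hζ' : IsPrimitiveRoot (iotaK (ζ : Kb)) q :=
    (IsPrimitiveRoot.coe_units_iff.mpr hζ).map_of_injective iotaK.injective
  obtain ⟨i, -, hi⟩ := (Complex.isPrimitiveRoot_exp q hq.ne_zero).eq_pow_of_pow_eq_one
    hζ'.pow_eq_one
  have hcop : Nat.Coprime i q := by
    rw [← hi] at hζ'
    exact ((Complex.isPrimitiveRoot_exp q hq.ne_zero).pow_iff_coprime hq.pos i).1 hζ'
  have hMq : Nat.Coprime M q := ((Nat.Prime.coprime_iff_not_dvd hq).2 hqM).symm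
  have hc2 : IsCoprime ((i : ℤ) * M) (q : ℤ) :=
    IsCoprime.mul_left (Nat.isCoprime_iff_coprime.mpr hcop) (Nat.isCoprime_iff_coprime.mpr hMq)
  obtain ⟨a, b, hab⟩ := hc2
  obtain ⟨φ, hφ, -⟩ := exists_isMid_theta M q hq (-a) (i : ℤ) ⟨b, by linear_combination (-1 : ℤ) * hab⟩ ζ (by
    rw [← hi]
    show _ = Complex.exp (2 * Real.pi * Complex.I * ((i : ℤ) : ℂ) / q)
    rw [← Complex.exp_nat_mul]
    congr 1
    push_cast
    ring)
  exact ⟨φ, hφ⟩

theorem coeffMap_C {A B : Type*} [CommRing A] [CommRing B] (f : A →+* B) (a : A) :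
    coeffMap f (HahnSeries.C a : LaurentSeries A) = HahnSeries.C (f a) :=
  coeffMap_single f 0 a

theorem IsMid.galois (hq : q.Prime) (σ : GQ) {ζ' : Kbˣ} (hζ' : (ζ' : Kb) = σ ζ)
    (h : IsMid M q ζ φ) (h' : IsMid M q ζ' φ') (y : FN (M * q * q)) :
    coeffMap (σ : Kb →+* Kb) (φ y) = φ' (galF (M * q * q) σ y) := by
  have hu : Units.map ((σ : Kb →+* Kb) : Kb →* Kb) ζ = ζ' := Units.ext hζ'.symm
  have key : (coeffMap (σ : Kb →+* Kb)).comp φ =
      φ'.comp ((GES.galF (M * q * q) σ : FN (M * q * q) ≃+* FN (M * q * q)) :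
        FN (M * q * q) →+* FN (M * q * q)) := by
    apply ringHom_ext (M * q * q)
    · intro a
      simp only [RingHom.comp_apply, RingHom.coe_coe]
      rw [h.const, galF_algebraMap, h'.const, coeffMap_C]
      rfl
    · intro d hd
      simp only [RingHom.comp_apply, RingHom.coe_coe]
      rw [galF_jdF]
      rcases dvd_cases hq hd with h1 | ⟨d', h1, rfl⟩
      · rw [h.apply_of_dvd h1 hd, h'.apply_of_dvd h1 hd, coeffMap_Jser_self]
      · rw [h.apply_sq h1 hd, h'.apply_sq h1 hd, S28.coeffMap_twist, coeffMap_Jser_self, hu]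
  exact congrArg (fun F : FN (M * q * q) →+* LaurentSeries Kb => F y) key

theorem twist_C (u : Kbˣ) (a : Kb) : S28.twist u (HahnSeries.C a) = HahnSeries.C a := by
  ext n
  rw [S28.twist_coeff]
  show _ * (HahnSeries.single 0 a).coeff n = (HahnSeries.single 0 a).coeff n
  by_cases hn : n = 0
  · subst hn; simp
  · rw [HahnSeries.coeff_single_of_ne hn, mul_zero]

theorem coe_algebraMap_FN (N : ℕ) [NeZero N] (a : Kb) :
    ((algebraMap Kb (FN N) a : FN N) : LaurentSeries Kb) = HahnSeries.C a := by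
  have : ((algebraMap Kb (FN N) a : FN N) : LaurentSeries Kb)
      = algebraMap Kb (LaurentSeries Kb) a := rfl
  rw [this, algebraMap_laurentSeries_eq_single]
  rfl

theorem twist_Jser_of_dvd {u : Kbˣ} {n d : ℕ} (hu : u ^ n = 1) (hn : n ≠ 0) (hd : d ≠ 0) :
    S28.twist u (Jser (n * d)) = Jser (n * d) := by
  have : NeZero n := ⟨hn⟩
  rw [← qExpand_Jser n d hd, GES.twist_qExpand_of_pow_eq_one u n hu]

theorem IsMid.comp_beta (hq : q.Prime) (hζ : ζ ^ q = 1) (h : IsMid M q ζ φ)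
    {w₁ : FN (M * q) →+* FN (M * q)} (hw : IsAL (M * q) M q w₁) (f : FN (M * q)) :
    φ (heckeBetaBar Kb (M * q) q f) = S28.twist ζ ((w₁ f : FN (M * q)) : LaurentSeries Kb) := by
  have hM0 : 0 < M := Nat.pos_of_ne_zero (NeZero.ne M)
  have key : φ.comp ((heckeBetaBar Kb (M * q) q : FN (M * q) →ₐ[Kb] FN (M * q * q)) :
      FN (M * q) →+* FN (M * q * q)) =
      ((S28.twist ζ).comp (algebraMap (FN (M * q)) (LaurentSeries Kb))).comp w₁ := by
    apply ringHom_ext (M * q)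
    · intro a
      simp only [RingHom.comp_apply, RingHom.coe_coe, AlgHom.commutes]
      rw [h.const, hw.1]
      show _ = S28.twist ζ ((algebraMap Kb (FN (M * q)) a : FN (M * q)) : LaurentSeries Kb)
      rw [coe_algebraMap_FN, twist_C]
    · intro d hd
      obtain ⟨d₁, d₂, h1, h2, rfl⟩ := (Nat.dvd_mul).1 hd
      have hd₁ : d₁ ≠ 0 := (Nat.pos_of_dvd_of_pos h1 hM0).ne'
      simp only [RingHom.comp_apply, RingHom.coe_coe]
      have hb : q * (d₁ * d₂) ∣ M * q * q := by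
        rw [mul_comm q]; exact Nat.mul_dvd_mul_right hd q
      rw [beta_jdF (M * q) q hd hb]
      show _ = S28.twist ζ ((w₁ (jdF (M * q) hd) : FN (M * q)) : LaurentSeries Kb)
      rcases (Nat.dvd_prime hq).1 h2 with h5 | h5
      · subst h5
        rw [hw.2 d₁ 1 q hd h1 (one_mul q).symm]
        have h3 : q * (d₁ * 1) ∣ M * q := by
          rw [mul_one, mul_comm]; exact Nat.mul_dvd_mul_right h1 q
        rw [h.apply_of_dvd h3 hb, mul_one, mul_comm d₁ q, twist_Jser_of_dvd hζ hq.ne_zero hd₁]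
      · have h6 := h5.symm
        subst h6
        rw [hw.2 d₁ q 1 hd h1 (mul_one q).symm, mul_one]
        have h3 : q * q * d₁ ∣ M * q * q := by
          have : q * q * d₁ = q * (d₁ * q) := by ring
          rw [this]; exact hb
        rw [jdF_congr (M * q * q) (by ring : q * (d₁ * q) = q * q * d₁) hb h3, h.apply_sq h1 h3]
  exact congrArg (fun F : FN (M * q) →+* LaurentSeries Kb => F f) key

/-- the `K`-rational version. -/
theorem IsMid.exists_K (hq : q.Prime) (h : IsMid M q ζ φ) {K : Type} [Field K] (ι : K →+* Kb)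
    (ζK : Kˣ) (hζK : ι ζK = ζ) :
    ∃ φK : modularFunctionFieldFullC K (M * q * q) →ₐ[K] LaurentSeries K,
      ∀ u, coeffMap ι (φK u) = φ (toFN ι (M * q * q) u) := by
  have hM0 : 0 < M := Nat.pos_of_ne_zero (NeZero.ne M)
  have hN0 : 0 < M * q * q := Nat.pos_of_ne_zero (NeZero.ne _)
  have hu : Units.map (ι : K →* Kb) ζK = ζ := Units.ext hζK
  have hJ : ∀ d : ℕ, d ≠ 0 → ∃ x : LaurentSeries K, coeffMap ι x = Jser d := by
    intro d hd
    have : NeZero d := ⟨hd⟩
    exact ⟨qExpand K d (jqModC K), by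
      rw [phi_Jser_of_ne, jqNModC, coeffMap_qExpand, phi_coeffMap_jqModC]⟩
  obtain ⟨ψ, hψ⟩ := exists_liftK ι (M * q * q) φ (coeffMap ι)
    (by
      intro a
      exact ⟨HahnSeries.C a, by rw [h.const, coeffMap_C]⟩)
    (by
      intro d hd
      rcases dvd_cases hq hd with h1 | ⟨d', h1, rfl⟩
      · rw [h.apply_of_dvd h1 hd]
        exact hJ d (Nat.pos_of_dvd_of_pos hd hN0).ne'
      · rw [h.apply_sq h1 hd]
        obtain ⟨x, hx⟩ := hJ d' (Nat.pos_of_dvd_of_pos h1 hM0).ne'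
        exact ⟨S28.twist ζK x, by rw [S28.coeffMap_twist, hx, hu]⟩)
  refine ⟨⟨ψ, ?_⟩, fun u => (hψ u).symm⟩
  intro a
  apply (coeffMap ι).injective
  show coeffMap ι (ψ _) = _
  rw [← hψ, toFN_algebraMap, h.const, algebraMap_laurentSeries_eq_single, coeffMap_single]
  rfl

end Fermat.Agent.S36.Mod
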