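import Fermat.Agent.S36.Mod.Lift

set_option autoImplicit false

/-!
# S36 / MOD36-B : the Atkin–Lehner involution `w_Q` on `F_N`, `N = M * Q`, `gcd(M, Q) = 1`

`IsAL N M Q w` : `w : F_N →+* F_N` fixes the constants and sends `j(q^(d₁ d₂))` to `j(q^(d₁ (Q / d₂)))`
for `d₁ ∣ M`, `d₂ ∣ Q`.  Existence (`exists_isAL`), uniqueness, `w ∘ w = id`.

Construction: `h = [[1, -b], [M, Q a]]`, `a Q + b M = 1`; `j(d₁ d₂ · h z) = j(d₁ z / d₂)`; so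
`(w f)(z) = f(h (Q z))`.
-/

noncomputable section

open UpperHalfPlane ModularForm CongruenceSubgroup
open scoped MatrixGroups

namespace Fermat.Agent.S36.Mod

open AlgebraicCurve ModularCurve
open Fermat.Agent.S24
open Fermat.Agent.GES

/-- the key analytic identity `j (d₁ d₂ · h z) = j (d₁ z / d₂)`. -/
theorem act_jd_AL {M Q d₁ d₂ e₁ e₂ : ℕ} (hd₁ : 0 < d₁) (hd₂ : 0 < d₂) (hM : M = d₁ * e₁)
    (hQ : Q = d₂ * e₂) (x y z w : ℤ) (hdet : Q * x * w - y * M * z = 1) (h : SL(2, ℤ))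
    (h00 : h 0 0 = x) (h01 : h 0 1 = y) (h10 : h 1 0 = M * z) (h11 : h 1 1 = Q * w) :
    act h⁻¹ (jd (d₁ * d₂)) = pre d₁ 0 d₂ jFun := by
  let γ : SL(2, ℤ) := ⟨!![x * d₂, d₁ * y; e₁ * z, e₂ * w], by
    rw [Matrix.det_fin_two_of]
    rw [hM, hQ] at hdet
    push_cast at hdet
    linarith⟩
  funext τ
  rw [act_apply, inv_inv]
  unfold jd pre
  have hd : 0 < d₁ * d₂ := Nat.mul_pos hd₁ hd₂
  set w' : ℍ := ofComplex ((((d₁ * d₂ : ℕ) : ℂ) * ((h • τ : ℍ) : ℂ) + (0 : ℕ)) / (1 : ℕ)) with hw'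
  set w₀ : ℍ := ofComplex (((d₁ : ℂ) * τ + (0 : ℕ)) / (d₂ : ℕ)) with hw
  have cw' : (w' : ℂ) = ((d₁ * d₂ : ℕ) : ℂ) * ((h • τ : ℍ) : ℂ) := by
    rw [hw', expandB_coe_ofComplex (d₁ * d₂) 0 1 hd one_pos]
    simp
  have cw : (w₀ : ℂ) = (d₁ : ℂ) * τ / d₂ := by
    rw [hw, expandB_coe_ofComplex d₁ 0 d₂ hd₁ hd₂]
    simp
  have hden := expandB_denom_ne h τ
  apply expandB_jFun_eq_of_coe γ
  have g00 : γ 0 0 = x * d₂ := rfl
  have g01 : γ 0 1 = d₁ * y := rfl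
  have g10 : γ 1 0 = e₁ * z := rfl
  have g11 : γ 1 1 = e₂ * w := rfl
  rw [g00, g01, g10, g11, cw, cw', expandB_coe_smul, h00, h01, h10, h11]
  rw [h10, h11] at hden
  have hd₂c : (d₂ : ℂ) ≠ 0 := by exact_mod_cast hd₂.ne'
  have hMc : (M : ℂ) = d₁ * e₁ := by exact_mod_cast hM
  have hQc : (Q : ℂ) = d₂ * e₂ := by exact_mod_cast hQ
  push_cast at hden ⊢
  rw [hMc, hQc] at hden ⊢
  have hden' : (d₁ : ℂ) * τ * e₁ * z + d₂ * e₂ * w ≠ 0 := by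
    have : (d₁ : ℂ) * τ * e₁ * z + d₂ * e₂ * w = d₁ * e₁ * z * τ + d₂ * e₂ * w := by ring
    rw [this]; exact hden
  field_simp

/-- `w` is the Atkin–Lehner involution `w_Q` of `F_N`, `N = M Q`. -/
def IsAL (N M Q : ℕ) [NeZero N] (w : FN N →+* FN N) : Prop :=
  (∀ a : Kb, w (algebraMap Kb (FN N) a) = algebraMap Kb (FN N) a) ∧
    ∀ (d₁ d₂ e₂ : ℕ) (hd : d₁ * d₂ ∣ N), d₁ ∣ M → Q = d₂ * e₂ →
      ((w (jdF N hd) : FN N) : LaurentSeries Kb) = Jser (d₁ * e₂)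

theorem coeffMap_Jser {d : ℕ} [NeZero d] :
    coeffMap iotaK (Jser d) = qExpand ℂ d (jqModC ℂ) := by
  rw [phi_Jser_of_ne, jqNModC, coeffMap_qExpand, phi_coeffMap_jqModC]

theorem stdEmb_jdF (N : ℕ) [NeZero N] {d : ℕ} [NeZero d] (hd : d ∣ N) :
    stdEmb N (jdF N hd) = qExpand ℂ (N * d) (jqModC ℂ) := by
  rw [stdEmb_apply, coe_jdF, coeffMap_Jser, qExpand_qExpand]

theorem stdEmb_const (N : ℕ) [NeZero N] (a : Kb) :
    stdEmb N (algebraMap Kb (FN N) a) = HahnSeries.C (iotaK a) := by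
  rw [← theta_one, theta_const]

theorem exists_isAL (N M Q : ℕ) [NeZero N] (hN : N = M * Q) (hcop : Nat.Coprime M Q) :
    ∃ w : FN N →+* FN N, IsAL N M Q w := by
  have hN0 : 0 < N := Nat.pos_of_ne_zero (NeZero.ne N)
  have hQ0 : 0 < Q := Nat.pos_of_ne_zero (by rintro rfl; simp at hN; omega)
  have hM0 : 0 < M := Nat.pos_of_ne_zero (by rintro rfl; simp at hN; omega)
  have : NeZero Q := ⟨hQ0.ne'⟩
  obtain ⟨b, a, hab⟩ : IsCoprime (M : ℤ) (Q : ℤ) := Nat.isCoprime_iff_coprime.mpr hcop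
  let h : SL(2, ℤ) := ⟨!![1, -b; M, Q * a], by rw [Matrix.det_fin_two_of]; linarith⟩
  have hdet : (Q : ℤ) * 1 * a - (-b) * M * 1 = 1 := by linarith
  have key : ∀ (d₁ d₂ e₂ : ℕ) (hd : d₁ * d₂ ∣ N) (hd' : d₁ * e₂ ∣ N), d₁ ∣ M → Q = d₂ * e₂ →
      (qExpand ℂ Q) (theta N (cuspChart N) h⁻¹ (jdF N hd)) = stdEmb N (jdF N hd') := by
    intro d₁ d₂ e₂ hd hd' h1 h2
    obtain ⟨e₁, he₁⟩ := h1
    have hd₁ : 0 < d₁ := Nat.pos_of_ne_zero (by rintro rfl; simp at he₁; omega)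
    have hd₂ : 0 < d₂ := Nat.pos_of_ne_zero (by rintro rfl; simp at h2; omega)
    have he₂ : 0 < e₂ := Nat.pos_of_ne_zero (by rintro rfl; simp at h2; omega)
    have hd₂N : d₂ ∣ N := (Dvd.intro_left d₁ rfl).trans hd
    have : NeZero (d₁ * (N / d₂)) :=
      ⟨(Nat.mul_pos hd₁ (Nat.div_pos (Nat.le_of_dvd hN0 hd₂N) hd₂)).ne'⟩
    have : NeZero (d₁ * e₂) := ⟨(Nat.mul_pos hd₁ he₂).ne'⟩
    have hact := act_jd_AL hd₁ hd₂ he₁ h2 1 (-b) 1 a hdet h rfl rfl (by simp [h]) rfl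
    rw [theta_jdF_of_pre N h⁻¹ hd hd₁ hd₂ hd₂N hact, stdEmb_jdF]
    have h0 : rootU d₂ ((0 : ℕ) : ℤ) = 1 := by rw [Nat.cast_zero]; exact expandC_rootU_zero d₂
    rw [h0, S24.twist_one, qExpand_qExpand]
    apply qExpand_congr
    obtain ⟨t, ht⟩ := hd₂N
    rw [ht, Nat.mul_div_cancel_left _ hd₂, h2]
    ring
  obtain ⟨w, hw⟩ := exists_lift N ((qExpand ℂ Q).comp (theta N (cuspChart N) h⁻¹)) (stdEmb N)
    (by
      intro c
      refine ⟨algebraMap Kb (FN N) c, ?_⟩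
      rw [RingHom.comp_apply, theta_const, stdEmb_const]
      show _ = qExpand ℂ Q (HahnSeries.single 0 (iotaK c))
      rw [qExpand_single, mul_zero]
      rfl)
    (by
      intro d hd
      have hd' : d ∣ M * Q := hN ▸ hd
      obtain ⟨d₁, d₂, h1, h2, rfl⟩ := (Nat.dvd_mul).1 hd'
      obtain ⟨e₂, he₂⟩ := h2
      have hd'' : d₁ * e₂ ∣ N := by
        rw [hN]; exact Nat.mul_dvd_mul h1 (Dvd.intro_left d₂ he₂.symm)
      exact ⟨jdF N hd'', (key d₁ d₂ e₂ hd hd'' h1 he₂).symm⟩)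
  refine ⟨w, ?_, ?_⟩
  · intro c
    apply (stdEmb N).injective
    rw [← hw, RingHom.comp_apply, theta_const, stdEmb_const]
    show qExpand ℂ Q (HahnSeries.single 0 (iotaK c)) = _
    rw [qExpand_single, mul_zero]
    rfl
  · intro d₁ d₂ e₂ hd h1 h2
    have hd'' : d₁ * e₂ ∣ N := by
      rw [hN]; exact Nat.mul_dvd_mul h1 (Dvd.intro_left d₂ h2.symm)
    have : w (jdF N hd) = jdF N hd'' := by
      apply (stdEmb N).injective
      rw [← hw, RingHom.comp_apply]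
      exact key d₁ d₂ e₂ hd hd'' h1 h2
    rw [this, coe_jdF]

end Fermat.Agent.S36.Mod
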