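import Fermat.Agent.S36.Mod.Mid
import Fermat.Agent.S18.Ctx

set_option autoImplicit false

/-!
# S36 / MOD36-B : properties of the Atkin–Lehner involutions and descent of ring homs to `F_{N,K}`

* `IsAL.ext`, `IsAL.invol`, `IsAL.galF`, `isAL_id`, `IsAL.comp_alpha`, `IsAL.comp_beta`;
* `exists_liftK` : descent of a ring hom out of `F_N` to `F_{N,K}` for `ι : K →+* ℚ̄`;
* `IsAL.exists_K` : the involution on `F_{N,K}`.
-/

noncomputable section

open UpperHalfPlane ModularForm CongruenceSubgroup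
open scoped MatrixGroups

namespace Fermat.Agent.S36.Mod

open AlgebraicCurve ModularCurve
open Fermat.Agent.S24
open Fermat.Agent.GES
open Fermat.Agent.S18 (toFN toFN_coe)

variable {N M Q : ℕ} [NeZero N] {w w' : FN N →+* FN N}

theorem IsAL.apply_jdF (hw : IsAL N M Q w) {d₁ d₂ e₂ : ℕ} (hd : d₁ * d₂ ∣ N) (hd' : d₁ * e₂ ∣ N)
    (h1 : d₁ ∣ M) (h2 : Q = d₂ * e₂) : w (jdF N hd) = jdF N hd' :=
  Subtype.ext (hw.2 d₁ d₂ e₂ hd h1 h2)

theorem jdF_congr (N : ℕ) [NeZero N] {d d' : ℕ} (h : d = d') (hd : d ∣ N) (hd' : d' ∣ N) :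
    jdF N hd = jdF N hd' := by
  subst h; rfl

theorem IsAL.ext (hN : N = M * Q) (hw : IsAL N M Q w) (hw' : IsAL N M Q w') : w = w' := by
  apply ringHom_ext N
  · intro a; rw [hw.1, hw'.1]
  · intro d hd
    have hd1 : d ∣ M * Q := hN ▸ hd
    obtain ⟨d₁, d₂, h1, ⟨e₂, h2⟩, rfl⟩ := (Nat.dvd_mul).1 hd1
    apply Subtype.ext
    rw [hw.2 d₁ d₂ e₂ hd h1 h2, hw'.2 d₁ d₂ e₂ hd h1 h2]

theorem IsAL.invol (hN : N = M * Q) (hw : IsAL N M Q w) (f : FN N) : w (w f) = f := by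
  have key : w.comp w = RingHom.id (FN N) := by
    apply ringHom_ext N
    · intro a; rw [RingHom.comp_apply, hw.1, hw.1]; rfl
    · intro d hd
      have hd1 : d ∣ M * Q := hN ▸ hd
      obtain ⟨d₁, d₂, h1, ⟨e₂, h2⟩, rfl⟩ := (Nat.dvd_mul).1 hd1
      have hd' : d₁ * e₂ ∣ N := by
        rw [hN]; exact Nat.mul_dvd_mul h1 (Dvd.intro_left d₂ h2.symm)
      rw [RingHom.comp_apply, hw.apply_jdF hd hd' h1 h2,
        hw.apply_jdF hd' hd h1 (by rw [h2, mul_comm])]
      rfl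
  exact congrArg (fun F : FN N →+* FN N => F f) key

theorem coeffMap_Jser_self (σ : Kb →+* Kb) (d : ℕ) : coeffMap σ (Jser d) = Jser d := by
  rcases eq_or_ne d 0 with rfl | hd
  · have : Jser 0 = 0 := by unfold Jser; rw [dif_pos rfl]
    rw [this, map_zero]
  · have : NeZero d := ⟨hd⟩
    rw [phi_Jser_of_ne, jqNModC, coeffMap_qExpand, phi_coeffMap_jqModC]

theorem galF_jdF (N : ℕ) [NeZero N] (σ : GQ) {d : ℕ} (hd : d ∣ N) :
    galF N σ (jdF N hd) = jdF N hd := by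
  apply Subtype.ext
  rw [coe_galF, coe_jdF, coeffMap_Jser_self]

theorem IsAL.galF (hN : N = M * Q) (hw : IsAL N M Q w) (σ : GQ) (f : FN N) :
    galF N σ (w f) = w (galF N σ f) := by
  have key : ((GES.galF N σ : FN N ≃+* FN N) : FN N →+* FN N).comp w =
      w.comp ((GES.galF N σ : FN N ≃+* FN N) : FN N →+* FN N) := by
    apply ringHom_ext N
    · intro a
      simp only [RingHom.comp_apply, RingHom.coe_coe]
      rw [hw.1, galF_algebraMap, hw.1]
    · intro d hd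
      have hd1 : d ∣ M * Q := hN ▸ hd
      obtain ⟨d₁, d₂, h1, ⟨e₂, h2⟩, rfl⟩ := (Nat.dvd_mul).1 hd1
      have hd' : d₁ * e₂ ∣ N := by
        rw [hN]; exact Nat.mul_dvd_mul h1 (Dvd.intro_left d₂ h2.symm)
      simp only [RingHom.comp_apply, RingHom.coe_coe]
      rw [hw.apply_jdF hd hd' h1 h2, galF_jdF, galF_jdF, hw.apply_jdF hd hd' h1 h2]
  exact congrArg (fun F : FN N →+* FN N => F f) key

theorem isAL_id (M : ℕ) [NeZero M] : IsAL M M 1 (RingHom.id (FN M)) := by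
  refine ⟨fun a => rfl, ?_⟩
  intro d₁ d₂ e₂ hd _ h2
  have h3 : d₂ = 1 := Nat.eq_one_of_mul_eq_one_right h2.symm
  have h4 : e₂ = 1 := Nat.eq_one_of_mul_eq_one_left h2.symm
  subst h3 h4
  rfl

section level

variable {N' Q' r : ℕ} [NeZero N'] [NeZero r] {w₁ : FN N' →+* FN N'}
  {w₂ : FN (N' * r) →+* FN (N' * r)}

theorem IsAL.comp_alpha (hN' : N' = M * Q') (hw₁ : IsAL N' M Q' w₁)
    (hw₂ : IsAL (N' * r) M (Q' * r) w₂) (f : FN N') :
    w₂ (heckeAlphaBar Kb N' r f) = heckeBetaBar Kb N' r (w₁ f) := by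
  have key : w₂.comp ((heckeAlphaBar Kb N' r : FN N' →ₐ[Kb] FN (N' * r)) : FN N' →+* FN (N' * r)) =
      ((heckeBetaBar Kb N' r : FN N' →ₐ[Kb] FN (N' * r)) : FN N' →+* FN (N' * r)).comp w₁ := by
    apply ringHom_ext N'
    · intro a
      simp only [RingHom.comp_apply, RingHom.coe_coe, AlgHom.commutes]
      rw [hw₂.1, hw₁.1, AlgHom.commutes]
    · intro d hd
      have hd1 : d ∣ M * Q' := hN' ▸ hd
      obtain ⟨d₁, d₂, h1, ⟨e₂, h2⟩, rfl⟩ := (Nat.dvd_mul).1 hd1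
      have hd' : d₁ * e₂ ∣ N' := by
        rw [hN']; exact Nat.mul_dvd_mul h1 (Dvd.intro_left d₂ h2.symm)
      have hd'' : r * (d₁ * e₂) ∣ N' * r := by
        rw [mul_comm r]; exact Nat.mul_dvd_mul_right hd' r
      have hd3 : d₁ * (e₂ * r) ∣ N' * r := by
        rw [← mul_assoc]; exact Nat.mul_dvd_mul_right hd' r
      simp only [RingHom.comp_apply, RingHom.coe_coe]
      rw [alpha_jdF, hw₁.apply_jdF hd hd' h1 h2, beta_jdF N' r hd' hd'',
        hw₂.apply_jdF (hd.mul_right r) hd3 h1 (by rw [h2, mul_assoc])]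
      exact jdF_congr _ (by ring) _ _
  exact congrArg (fun F : FN N' →+* FN (N' * r) => F f) key

theorem IsAL.comp_beta (hN' : N' = M * Q') (hw₁ : IsAL N' M Q' w₁)
    (hw₂ : IsAL (N' * r) M (Q' * r) w₂) (f : FN N') :
    w₂ (heckeBetaBar Kb N' r f) = heckeAlphaBar Kb N' r (w₁ f) := by
  have key : w₂.comp ((heckeBetaBar Kb N' r : FN N' →ₐ[Kb] FN (N' * r)) : FN N' →+* FN (N' * r)) =
      ((heckeAlphaBar Kb N' r : FN N' →ₐ[Kb] FN (N' * r)) : FN N' →+* FN (N' * r)).comp w₁ := by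
    apply ringHom_ext N'
    · intro a
      simp only [RingHom.comp_apply, RingHom.coe_coe, AlgHom.commutes]
      rw [hw₂.1, hw₁.1, AlgHom.commutes]
    · intro d hd
      have hd1 : d ∣ M * Q' := hN' ▸ hd
      obtain ⟨d₁, d₂, h1, ⟨e₂, h2⟩, rfl⟩ := (Nat.dvd_mul).1 hd1
      have hd' : d₁ * e₂ ∣ N' := by
        rw [hN']; exact Nat.mul_dvd_mul h1 (Dvd.intro_left d₂ h2.symm)
      have hd'' : r * (d₁ * d₂) ∣ N' * r := by
        rw [mul_comm r]; exact Nat.mul_dvd_mul_right hd r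
      have hd3 : d₁ * (d₂ * r) ∣ N' * r := by
        rw [← mul_assoc]; exact Nat.mul_dvd_mul_right hd r
      simp only [RingHom.comp_apply, RingHom.coe_coe]
      rw [beta_jdF N' r hd hd'', hw₁.apply_jdF hd hd' h1 h2, alpha_jdF,
        jdF_congr (N' * r) (by ring : r * (d₁ * d₂) = d₁ * (d₂ * r)) hd'' hd3,
        hw₂.apply_jdF hd3 (hd'.mul_right r) h1 (by rw [h2]; ring)]
  exact congrArg (fun F : FN N' →+* FN (N' * r) => F f) key

end level

/-! ### descent to `F_{N,K}` -/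

section K

variable {K : Type} [Field K] (ι : K →+* Kb)

theorem toFN_algebraMap (N : ℕ) [NeZero N] (a : K) :
    toFN ι N (algebraMap K (modularFunctionFieldFullC K N) a) = algebraMap Kb (FN N) (ι a) := by
  apply Subtype.ext
  rw [toFN_coe]
  show coeffMap ι (algebraMap K (LaurentSeries K) a) = algebraMap Kb (LaurentSeries Kb) (ι a)
  rw [algebraMap_laurentSeries_eq_single, coeffMap_single, ← algebraMap_laurentSeries_eq_single]

/-- the generator `j(Q^d)` of `F_{N,K}`. -/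
def jdK (K : Type) [Field K] (N : ℕ) [NeZero N] {d : ℕ} [NeZero d] (hd : d ∣ N) :
    modularFunctionFieldFullC K N := ⟨qExpand K d (jqModC K), jqModCd_mem_full K N hd⟩

theorem toFN_jdK (N : ℕ) [NeZero N] {d : ℕ} [NeZero d] (hd : d ∣ N) :
    toFN ι N (jdK K N hd) = jdF N hd := by
  apply Subtype.ext
  rw [toFN_coe, coe_jdF, phi_Jser_of_ne, jqNModC]
  show coeffMap ι (qExpand K d (jqModC K)) = _
  rw [coeffMap_qExpand, phi_coeffMap_jqModC]

theorem exists_liftK (N : ℕ) [NeZero N] {L T : Type*} [Field L] [Field T] (Ψ : FN N →+* T)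
    (E : L →+* T) (hc : ∀ a : K, Ψ (algebraMap Kb (FN N) (ι a)) ∈ E.range)
    (hJ : ∀ (d : ℕ) (hd : d ∣ N), Ψ (jdF N hd) ∈ E.range) :
    ∃ ψ : modularFunctionFieldFullC K N →+* L, ∀ u, Ψ (toFN ι N u) = E (ψ u) := by
  have hall : ∀ u : modularFunctionFieldFullC K N, Ψ (toFN ι N u) ∈ E.fieldRange := by
    rintro ⟨f, hf⟩
    have hf' : f ∈ IntermediateField.adjoin K (divisorExpansionsC K N) := hf
    induction hf' using IntermediateField.adjoin_induction with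
    | mem x hx =>
      obtain ⟨d, hd0, hd, rfl⟩ := hx
      have : toFN ι N ⟨qExpand K d (jqModC K), hf⟩ = jdF N hd := toFN_jdK ι N hd
      rw [this]
      exact hJ d hd
    | algebraMap r =>
      have : toFN ι N ⟨algebraMap K (LaurentSeries K) r, hf⟩ = algebraMap Kb (FN N) (ι r) :=
        toFN_algebraMap ι N r
      rw [this]
      exact hc r
    | add x y hx hy ihx ihy =>
      have e : (⟨x + y, hf⟩ : modularFunctionFieldFullC K N) = ⟨x, hx⟩ + ⟨y, hy⟩ := rfl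
      rw [e, map_add, map_add]
      exact add_mem (ihx hx) (ihy hy)
    | inv x hx ihx =>
      have e : (⟨x⁻¹, hf⟩ : modularFunctionFieldFullC K N) = (⟨x, hx⟩)⁻¹ := rfl
      rw [e, map_inv₀, map_inv₀]
      exact inv_mem (ihx hx)
    | mul x y hx hy ihx ihy =>
      have e : (⟨x * y, hf⟩ : modularFunctionFieldFullC K N) = ⟨x, hx⟩ * ⟨y, hy⟩ := rfl
      rw [e, map_mul, map_mul]
      exact mul_mem (ihx hx) (ihy hy)
  have hall' : ∀ u : modularFunctionFieldFullC K N, ∃ l : L, E l = Ψ (toFN ι N u) := hall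
  choose φ hφ using hall'
  have hinj : Function.Injective E := E.injective
  refine ⟨{ toFun := φ, map_one' := ?_, map_mul' := ?_, map_zero' := ?_, map_add' := ?_ },
    fun y => (hφ y).symm⟩
  · apply hinj; rw [hφ, map_one, map_one, map_one]
  · intro x y; apply hinj; rw [hφ, map_mul, map_mul, map_mul, hφ, hφ]
  · apply hinj; rw [hφ, map_zero, map_zero, map_zero]
  · intro x y; apply hinj; rw [hφ, map_add, map_add, map_add, hφ, hφ]

/-- the Atkin–Lehner involution on `F_{N,K}`. -/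
theorem IsAL.exists_K (hN : N = M * Q) (hw : IsAL N M Q w) :
    ∃ wK : modularFunctionFieldFullC K N ≃ₐ[K] modularFunctionFieldFullC K N,
      (∀ u, toFN ι N (wK u) = w (toFN ι N u)) ∧ ∀ u, wK (wK u) = u := by
  have hN0 : 0 < N := Nat.pos_of_ne_zero (NeZero.ne N)
  obtain ⟨ψ, hψ⟩ := exists_liftK ι N w (toFN ι N)
    (by
      intro a
      exact ⟨algebraMap K _ a, by rw [hw.1, toFN_algebraMap]⟩)
    (by
      intro d hd
      have hd1 : d ∣ M * Q := hN ▸ hd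
      obtain ⟨d₁, d₂, h1, ⟨e₂, h2⟩, rfl⟩ := (Nat.dvd_mul).1 hd1
      have hd' : d₁ * e₂ ∣ N := by
        rw [hN]; exact Nat.mul_dvd_mul h1 (Dvd.intro_left d₂ h2.symm)
      have : NeZero (d₁ * e₂) := ⟨(Nat.pos_of_dvd_of_pos hd' hN0).ne'⟩
      exact ⟨jdK K N hd', by rw [toFN_jdK, hw.apply_jdF hd hd' h1 h2]⟩)
  have hinj : Function.Injective (toFN ι N) := (toFN ι N).injective
  have hinv : ∀ u, ψ (ψ u) = u := by
    intro u
    apply hinj
    rw [← hψ, ← hψ, hw.invol hN]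
  refine ⟨AlgEquiv.ofAlgHom ⟨ψ, ?_⟩ ⟨ψ, ?_⟩ ?_ ?_, fun u => (hψ u).symm, hinv⟩
  · intro a
    apply hinj
    show toFN ι N (ψ _) = _
    rw [← hψ, toFN_algebraMap, hw.1]
  · intro a
    apply hinj
    show toFN ι N (ψ _) = _
    rw [← hψ, toFN_algebraMap, hw.1]
  · exact AlgHom.ext hinv
  · exact AlgHom.ext hinv

end K

end Fermat.Agent.S36.Mod
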