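import Fermat.Agent.GES.EmbG0
import Fermat.Agent.S36.AuxL.Defs

set_option autoImplicit false

/-!
# S36 / MOD36-B : generalities on ring homomorphisms out of `F_N`

* `jdF N hd` : the generator `j(q^d)` of `F_N`, `d ∣ N`;
* `ringHom_ext` : ring homs out of `F_N` are determined by their values on constants and on the `jdF`;
* `exists_lift` : a ring hom `Φ : F_N → S` whose values on the generators lie in the range of `E : L → S` factors through `E`;
* `theta_jdF_of_pre` : the expansion at `∞` of `j(d g⁻¹ z)` when it is `j((a z + b)/δ)`.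
-/

noncomputable section

open UpperHalfPlane ModularForm CongruenceSubgroup
open scoped MatrixGroups

namespace Fermat.Agent.S36.Mod

open AlgebraicCurve ModularCurve
open Fermat.Agent.S24
open Fermat.Agent.GES

/-- the generator `j(q^d)` of `F_N`. -/
def jdF (N : ℕ) [NeZero N] {d : ℕ} (hd : d ∣ N) : FN N := thetaIncl N ⟨Jser d, Jser_mem_A0 hd⟩

@[simp] theorem coe_jdF (N : ℕ) [NeZero N] {d : ℕ} (hd : d ∣ N) :
    ((jdF N hd : FN N) : LaurentSeries Kb) = Jser d := rfl

theorem ringHom_ext (N : ℕ) [NeZero N] {S : Type*} [Field S] (θ θ' : FN N →+* S)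
    (hc : ∀ a : Kb, θ (algebraMap Kb (FN N) a) = θ' (algebraMap Kb (FN N) a))
    (hJ : ∀ (d : ℕ) (hd : d ∣ N), θ (jdF N hd) = θ' (jdF N hd)) : θ = θ' := by
  have key : θ.comp (thetaIncl N) = θ'.comp (thetaIncl N) := by
    apply phi_ringHom_ext N
    · intro a; exact hc a
    · intro d hd; exact hJ d hd
  ext1 f
  obtain ⟨u, w, -, hf⟩ := thetaIncl_exists_div N f
  have hu := congrArg (fun φ => φ u) key
  have hw := congrArg (fun φ => φ w) key
  simp only [RingHom.comp_apply] at hu hw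
  rw [hf, map_div₀, map_div₀, hu, hw]

theorem exists_lift (N : ℕ) [NeZero N] {L S : Type*} [Field L] [Field S] (Φ : FN N →+* S)
    (E : L →+* S) (hc : ∀ a : Kb, Φ (algebraMap Kb (FN N) a) ∈ E.range)
    (hJ : ∀ (d : ℕ) (hd : d ∣ N), Φ (jdF N hd) ∈ E.range) :
    ∃ φ : FN N →+* L, ∀ y, Φ y = E (φ y) := by
  have hA : ∀ a : A0 N, Φ (thetaIncl N a) ∈ E.fieldRange := by
    rintro ⟨a, ha⟩
    have ha' : a ∈ Algebra.adjoin Kb (fGens N) := ha
    induction ha' using Algebra.adjoin_induction with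
    | mem x hx =>
      obtain ⟨d, hd, rfl⟩ := hx
      exact hJ d hd
    | algebraMap r => exact hc r
    | add x y hx hy ihx ihy =>
      have hx' : x ∈ A0 N := hx
      have hy' : y ∈ A0 N := hy
      have e : thetaIncl N ⟨x + y, ha⟩ = thetaIncl N ⟨x, hx'⟩ + thetaIncl N ⟨y, hy'⟩ := rfl
      rw [e, map_add]
      exact add_mem (ihx hx') (ihy hy')
    | mul x y hx hy ihx ihy =>
      have hx' : x ∈ A0 N := hx
      have hy' : y ∈ A0 N := hy
      have e : thetaIncl N ⟨x * y, ha⟩ = thetaIncl N ⟨x, hx'⟩ * thetaIncl N ⟨y, hy'⟩ := rfl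
      rw [e, map_mul]
      exact mul_mem (ihx hx') (ihy hy')
  have hall : ∀ y : FN N, ∃ l : L, E l = Φ y := by
    intro y
    obtain ⟨u, w, -, hf⟩ := thetaIncl_exists_div N y
    have : Φ y ∈ E.fieldRange := by
      rw [hf, map_div₀]
      exact div_mem (hA u) (hA w)
    exact this
  choose φ hφ using hall
  have hinj : Function.Injective E := E.injective
  refine ⟨{ toFun := φ, map_one' := ?_, map_mul' := ?_, map_zero' := ?_, map_add' := ?_ },
    fun y => (hφ y).symm⟩
  · apply hinj; rw [hφ, map_one, map_one]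
  · intro x y; apply hinj; rw [hφ, map_mul, map_mul, hφ, hφ]
  · apply hinj; rw [hφ, map_zero, map_zero]
  · intro x y; apply hinj; rw [hφ, map_add, map_add, hφ, hφ]

theorem theta_jdF_of_pre (N : ℕ) [NeZero N] (g : SL(2, ℤ)) {d : ℕ} (hd : d ∣ N) {a b δ : ℕ}
    (ha : 0 < a) (hδ : 0 < δ) (hδN : δ ∣ N) [NeZero (a * (N / δ))]
    (h : act g (jd d) = pre a b δ jFun) :
    theta N (cuspChart N) g (jdF N hd) =
      qExpand ℂ (a * (N / δ)) (S24.twist (rootU δ b) (jqModC ℂ)) := by
  rw [jdF, theta_incl, ← TInf_pre_jFun ha hδ hδN]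
  show TInf N ⟨_, Btil_le_perSub N (actB N g (PhiB N ⟨Jser d, Jser_mem_A0 hd⟩)).2⟩ = _
  apply expandC_TInf_congr
  rw [coe_actB, PhiB_Jser N hd, h]

end Fermat.Agent.S36.Mod
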