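import Fermat.Agent.S36.Mod.AL

set_option autoImplicit false

/-!
# S36 / MOD36-B : the expansion at the middle cusp `1/(qM)` of `X₀(q² M)`

Level `N = M * q * q`.  `IsMid M q ζ φ` : `φ : F_N →+* ℚ̄((Q))` is the identity on `F_{Mq}` and sends
`f(Q^{q²})` to `f(ζ Q)` for `f ∈ F_M`.

`exists_isMid_theta` : for `c M k ≡ -1 (mod q)` and `ζ = exp(2 π i c / q)`, the S24 embedding
`theta N ∞ (deltaK (M q) k)` is (in the variable `s = Q^{1/N}`) such a `φ`.
-/

noncomputable section

open UpperHalfPlane ModularForm CongruenceSubgroup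
open scoped MatrixGroups

namespace Fermat.Agent.S36.Mod

open AlgebraicCurve ModularCurve
open Fermat.Agent.S24
open Fermat.Agent.GES
open Fermat.Agent.S36.AuxL (deltaK)

theorem deltaK_inv' (P : ℕ) (k : ℤ) : (deltaK P k)⁻¹ = deltaK P (-k) := by
  apply inv_eq_of_mul_eq_one_right
  ext i j
  rw [Matrix.SpecialLinearGroup.coe_mul]
  fin_cases i <;> fin_cases j <;>
    simp [deltaK, Matrix.mul_apply, Fin.sum_univ_two]

/-- the key analytic identity `j (q² d' · g⁻¹ z) = j ((q d' z + y) / q)`, `g = deltaK (M q) k`. -/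
theorem act_jd_mid {M q d' e : ℕ} (hq : 0 < q) (hd' : 0 < d') (hM : M = d' * e) (k : ℤ) (y : ℕ)
    (t : ℤ) (h : (e : ℤ) * k * y + 1 = q * t) :
    act (deltaK (M * q) k) (jd (q * q * d')) = pre (q * d') y q jFun := by
  let γ : SL(2, ℤ) := ⟨!![(q : ℤ), -y; -(e * k), t], by
    rw [Matrix.det_fin_two_of]
    linarith⟩
  funext τ
  rw [act_apply, deltaK_inv']
  unfold jd pre
  set g : SL(2, ℤ) := deltaK (M * q) (-k) with hg
  have hD : 0 < q * q * d' := Nat.mul_pos (Nat.mul_pos hq hq) hd'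
  have hqd : 0 < q * d' := Nat.mul_pos hq hd'
  set w' : ℍ := ofComplex ((((q * q * d' : ℕ) : ℂ) * ((g • τ : ℍ) : ℂ) + (0 : ℕ)) / (1 : ℕ)) with hw'
  set w₀ : ℍ := ofComplex ((((q * d' : ℕ) : ℂ) * τ + (y : ℕ)) / (q : ℕ)) with hw
  have cw' : (w' : ℂ) = ((q * q * d' : ℕ) : ℂ) * ((g • τ : ℍ) : ℂ) := by
    rw [hw', expandB_coe_ofComplex (q * q * d') 0 1 hD one_pos]
    simp
  have cw : (w₀ : ℂ) = (((q * d' : ℕ) : ℂ) * τ + y) / q := by
    rw [hw, expandB_coe_ofComplex (q * d') y q hqd hq]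
  have hden := expandB_denom_ne g τ
  apply expandB_jFun_eq_of_coe γ
  have g00 : γ 0 0 = q := rfl
  have g01 : γ 0 1 = -y := rfl
  have g10 : γ 1 0 = -(e * k) := rfl
  have g11 : γ 1 1 = t := rfl
  have d00 : g 0 0 = 1 := rfl
  have d01 : g 0 1 = 0 := rfl
  have d10 : g 1 0 = ((M * q : ℕ) : ℤ) * (-k) := rfl
  have d11 : g 1 1 = 1 := rfl
  rw [g00, g01, g10, g11, cw, cw', expandB_coe_smul, d00, d01, d10, d11]
  rw [d10, d11] at hden
  have hqc : (q : ℂ) ≠ 0 := by exact_mod_cast hq.ne'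
  have hMc : (M : ℂ) = d' * e := by exact_mod_cast hM
  have htc : (t : ℂ) = ((e : ℂ) * k * y + 1) / q := by
    rw [eq_div_iff hqc]
    have : ((t * q : ℤ) : ℂ) = ((e * k * y + 1 : ℤ) : ℂ) := by rw [h]; push_cast; ring
    push_cast at this
    exact this
  push_cast at hden ⊢
  rw [hMc] at hden ⊢
  rw [htc]
  have hden' : 1 - (q : ℂ) * d' * τ * e * k ≠ 0 := by
    have : 1 - (q : ℂ) * d' * τ * e * k = d' * e * q * -k * τ + 1 := by ring
    rw [this]; exact hden
  have hden'' : (d' : ℂ) * e * q * -k * τ + 1 = 1 - (q : ℂ) * d' * τ * e * k := by ring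
  rw [hden'']
  field_simp
  ring

/-- `φ` is the expansion at the middle cusp with parameter `ζ`. -/
structure IsMid (M q : ℕ) [NeZero M] [NeZero q] (ζ : Kbˣ)
    (φ : FN (M * q * q) →+* LaurentSeries Kb) : Prop where
  const : ∀ a : Kb, φ (algebraMap Kb (FN (M * q * q)) a) = HahnSeries.C a
  alpha : ∀ f : FN (M * q), φ (heckeAlphaBar Kb (M * q) q f) = (f : LaurentSeries Kb)
  beta : ∀ f : FN M, φ (heckeBetaBar Kb (M * q) q (heckeBetaBar Kb M q f)) =
    S28.twist ζ (f : LaurentSeries Kb)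

theorem twist_eq_twist (u : ℂˣ) (x : LaurentSeries ℂ) : S24.twist u x = S28.twist u x := by
  ext n
  rw [S24.twist_coeff, S28.twist_coeff, Units.val_zpow_eq_zpow_val]

theorem rootU_pow' (δ : ℕ) (b : ℤ) (n : ℕ) : rootU δ b ^ n = rootU δ (b * n) := by
  apply Units.ext
  rw [Units.val_pow_eq_pow_val]
  show (Complex.exp (2 * Real.pi * Complex.I * b / δ)) ^ n =
    Complex.exp (2 * Real.pi * Complex.I * ((b * n : ℤ) : ℂ) / δ)
  rw [← Complex.exp_nat_mul]
  congr 1
  push_cast
  ring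

theorem rootU_add_mul (δ : ℕ) (hδ : δ ≠ 0) (b m : ℤ) : rootU δ (b + δ * m) = rootU δ b := by
  apply Units.ext
  show Complex.exp (2 * Real.pi * Complex.I * ((b + δ * m : ℤ) : ℂ) / δ) =
    Complex.exp (2 * Real.pi * Complex.I * b / δ)
  have hδ' : (δ : ℂ) ≠ 0 := by exact_mod_cast hδ
  have : 2 * Real.pi * Complex.I * ((b + δ * m : ℤ) : ℂ) / δ =
      2 * Real.pi * Complex.I * b / δ + m * (2 * Real.pi * Complex.I) := by
    push_cast
    field_simp
  rw [this, Complex.exp_add, Complex.exp_int_mul_two_pi_mul_I, mul_one]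

/-- the embedding `f(Q) ↦ f(s^N)` of `ℚ̄((Q))` in `ℂ((s))`. -/
def bigEmb (N : ℕ) [NeZero N] : LaurentSeries Kb →+* LaurentSeries ℂ :=
  (qExpand ℂ N).comp (coeffMap iotaK)

theorem bigEmb_apply (N : ℕ) [NeZero N] (x : LaurentSeries Kb) :
    bigEmb N x = qExpand ℂ N (coeffMap iotaK x) := rfl

theorem stdEmb_eq_bigEmb (N : ℕ) [NeZero N] (f : FN N) :
    stdEmb N f = bigEmb N (f : LaurentSeries Kb) := rfl

theorem bigEmb_C (N : ℕ) [NeZero N] (a : Kb) :
    bigEmb N (HahnSeries.C a) = HahnSeries.C (iotaK a) := by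
  rw [bigEmb_apply]
  show qExpand ℂ N (coeffMap iotaK (HahnSeries.single 0 a)) = _
  rw [coeffMap_single, qExpand_single, mul_zero]
  rfl

theorem alpha_jdF (N ℓ : ℕ) [NeZero N] [NeZero ℓ] {d : ℕ} (hd : d ∣ N) :
    heckeAlphaBar Kb N ℓ (jdF N hd) = jdF (N * ℓ) (hd.mul_right ℓ) := by
  apply Subtype.ext
  rw [coe_heckeAlphaBar, coe_jdF, coe_jdF]

theorem qExpand_Jser (ℓ d : ℕ) [NeZero ℓ] (hd : d ≠ 0) : qExpand Kb ℓ (Jser d) = Jser (ℓ * d) := by
  have : NeZero d := ⟨hd⟩
  rw [phi_Jser_of_ne, phi_Jser_of_ne, jqNModC, jqNModC, qExpand_qExpand]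

theorem beta_jdF (N ℓ : ℕ) [NeZero N] [NeZero ℓ] {d : ℕ} (hd : d ∣ N) (hd' : ℓ * d ∣ N * ℓ) :
    heckeBetaBar Kb N ℓ (jdF N hd) = jdF (N * ℓ) hd' := by
  apply Subtype.ext
  rw [coe_heckeBetaBar, coe_jdF, coe_jdF]
  exact qExpand_Jser ℓ d (Nat.pos_of_dvd_of_pos hd (Nat.pos_of_ne_zero (NeZero.ne N))).ne'

theorem exists_isMid_theta (M q : ℕ) [NeZero M] [NeZero q] (hq : q.Prime) (k c : ℤ)
    (hc : (q : ℤ) ∣ c * M * k + 1) (ζ : Kbˣ) (hζ : iotaK ζ = rootU q c) :
    ∃ φ : FN (M * q * q) →+* LaurentSeries Kb, IsMid M q ζ φ ∧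
      ∀ y, theta (M * q * q) (cuspChart (M * q * q)) (deltaK (M * q) k) y =
        bigEmb (M * q * q) (φ y) := by
  set N := M * q * q with hN
  have hN0 : 0 < N := Nat.pos_of_ne_zero (NeZero.ne N)
  have hM0 : 0 < M := Nat.pos_of_ne_zero (NeZero.ne M)
  have hq0 : 0 < q := hq.pos
  have hmem : deltaK (M * q) k ∈ Gamma0 (M * q) := by
    rw [Gamma0_mem]
    show ((((M * q : ℕ) : ℤ) * k : ℤ) : ZMod (M * q)) = 0
    push_cast
    have : ((M : ZMod (M * q)) * (q : ZMod (M * q))) = ((M * q : ℕ) : ZMod (M * q)) := by push_cast; rfl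
    rw [this, ZMod.natCast_self, zero_mul]
  have hζu : Units.map (iotaK : Kb →* ℂ) ζ = rootU q c := Units.ext hζ
  -- the generators of the first kind
  have key1 : ∀ f : FN (M * q), theta N (cuspChart N) (deltaK (M * q) k)
      (heckeAlphaBar Kb (M * q) q f) = bigEmb N (f : LaurentSeries Kb) := by
    intro f
    have h1 := theta_alpha (M * q) q _ hmem f
    rw [stdEmb_eq_bigEmb, coe_heckeAlphaBar] at h1
    exact h1
  -- the generators of the second kind
  have key2 : ∀ (d' : ℕ) (hd' : d' ∣ M) (hd : q * q * d' ∣ N),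
      theta N (cuspChart N) (deltaK (M * q) k) (jdF N hd) = bigEmb N (S28.twist ζ (Jser d')) := by
    intro d' hd' hd
    obtain ⟨e, he⟩ := hd'
    have hd'0 : 0 < d' := Nat.pos_of_ne_zero (by rintro rfl; simp at he; omega)
    have : NeZero d' := ⟨hd'0.ne'⟩
    have hqz : (q : ℤ) ≠ 0 := by exact_mod_cast hq0.ne'
    set y : ℕ := ((c * d') % q).toNat with hy
    have hy' : (y : ℤ) = (c * d') % q := Int.toNat_of_nonneg (Int.emod_nonneg _ hqz)
    have hy'' : (y : ℤ) = c * d' + q * (-((c * d') / q)) := by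
      rw [hy']
      have := Int.emod_add_mul_ediv (c * d') q
      linarith
    obtain ⟨t, ht⟩ : (q : ℤ) ∣ (e : ℤ) * k * y + 1 := by
      rw [hy'']
      obtain ⟨s, hs⟩ := hc
      refine ⟨s - e * k * ((c * d') / q), ?_⟩
      have hMz : (M : ℤ) = d' * e := by exact_mod_cast he
      rw [hMz] at hs
      linear_combination hs
    have hact := act_jd_mid hq0 hd'0 he k y t ht
    have hqN : q ∣ N := Dvd.intro_left (M * q) rfl
    have hNq : N / q = M * q := by rw [hN, Nat.mul_div_cancel _ hq0]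
    have : NeZero (q * d' * (N / q)) := ⟨by
      rw [hNq]; exact (Nat.mul_pos (Nat.mul_pos hq0 hd'0) (Nat.mul_pos hM0 hq0)).ne'⟩
    rw [theta_jdF_of_pre N _ hd (Nat.mul_pos hq0 hd'0) hq0 hqN hact, bigEmb_apply,
      S28.coeffMap_twist, hζu, coeffMap_Jser, GES.twist_qExpand, qExpand_qExpand, twist_eq_twist,
      rootU_pow', hy'', rootU_add_mul q hq0.ne']
    apply qExpand_congr
    rw [hNq, hN]
    ring
  obtain ⟨φ, hφ⟩ := exists_lift N (theta N (cuspChart N) (deltaK (M * q) k)) (bigEmb N)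
    (by
      intro a
      exact ⟨HahnSeries.C a, by rw [theta_const, bigEmb_C]⟩)
    (by
      intro d hd
      have hd1 : d ∣ M * (q ^ 2) := by rw [pow_two, ← mul_assoc]; exact hd
      obtain ⟨d₁, d₂, h1, h2, rfl⟩ := (Nat.dvd_mul).1 hd1
      obtain ⟨i, hi, rfl⟩ := (Nat.dvd_prime_pow hq).1 h2
      interval_cases i
      · have h3 : d₁ * q ^ 0 ∣ M * q := by simpa using h1.mul_right q
        have := key1 (jdF (M * q) h3)
        rw [alpha_jdF] at this
        exact ⟨_, this.symm⟩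
      · have h3 : d₁ * q ^ 1 ∣ M * q := by simpa using Nat.mul_dvd_mul_right h1 q
        have := key1 (jdF (M * q) h3)
        rw [alpha_jdF] at this
        exact ⟨_, this.symm⟩
      · have h3 : d₁ * q ^ 2 = q * q * d₁ := by ring
        have h4 : q * q * d₁ ∣ N := h3 ▸ hd
        have h5 : jdF N hd = jdF N h4 := by
          apply Subtype.ext
          rw [coe_jdF, coe_jdF, h3]
        rw [h5]
        exact ⟨_, (key2 d₁ h1 h4).symm⟩)
  have hinj : Function.Injective (bigEmb N) := (bigEmb N).injective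
  refine ⟨φ, ⟨?_, ?_, ?_⟩, hφ⟩
  · intro a
    apply hinj
    rw [← hφ, theta_const, bigEmb_C]
  · intro f
    apply hinj
    rw [← hφ, key1]
  · have hcomp : (φ.comp ((heckeBetaBar Kb (M * q) q : FN (M * q) →ₐ[Kb] FN N) :
        FN (M * q) →+* FN N)).comp ((heckeBetaBar Kb M q : FN M →ₐ[Kb] FN (M * q)) :
        FN M →+* FN (M * q)) =
        (S28.twist ζ).comp (algebraMap (FN M) (LaurentSeries Kb)) := by
      apply ringHom_ext M
      · intro a
        simp only [RingHom.comp_apply, RingHom.coe_coe, AlgHom.commutes]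
        apply hinj
        rw [← hφ, theta_const]
        have e3 : algebraMap (FN M) (LaurentSeries Kb) (algebraMap Kb (FN M) a) =
            HahnSeries.C a := by
          show ((algebraMap Kb (FN M) a : FN M) : LaurentSeries Kb) = _
          have : ((algebraMap Kb (FN M) a : FN M) : LaurentSeries Kb)
            = algebraMap Kb (LaurentSeries Kb) a := rfl
          rw [this, algebraMap_laurentSeries_eq_single]
          rfl
        rw [e3]
        have e4 : S28.twist ζ (HahnSeries.C a) = HahnSeries.C a := by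
          ext n
          rw [S28.twist_coeff]
          show _ * (HahnSeries.single 0 a).coeff n = (HahnSeries.single 0 a).coeff n
          by_cases hn : n = 0
          · subst hn; simp
          · rw [HahnSeries.coeff_single_of_ne hn, mul_zero]
        rw [e4, bigEmb_C]
      · intro d' hd'
        simp only [RingHom.comp_apply, RingHom.coe_coe]
        have h1 : q * d' ∣ M * q := by rw [mul_comm q d']; exact Nat.mul_dvd_mul_right hd' q
        have h2 : q * (q * d') ∣ M * q * q := by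
          rw [mul_comm q (q * d')]; exact Nat.mul_dvd_mul_right h1 q
        have h3 : q * q * d' ∣ N := by rw [mul_assoc]; exact h2
        rw [beta_jdF M q hd' h1, beta_jdF (M * q) q h1 h2]
        have h5 : jdF (M * q * q) h2 = jdF N h3 := by
          apply Subtype.ext
          rw [coe_jdF, coe_jdF, mul_assoc]
        rw [h5]
        apply hinj
        rw [← hφ, key2 d' hd' h3]
        rfl
    intro f
    exact congrArg (fun F : FN M →+* LaurentSeries Kb => F f) hcomp

end Fermat.Agent.S36.Mod
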